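/-
P-S56, block (A) (local flat bound), file HOPF-2 of helper35's blueprint (note 1366) (helper78).

**The `p`-th power map on `1 + ϖ^a R`** (the lemma (PP) of the blueprint, the only analytic input
of the elementary proof of Fontaine's ramification bound).

ABSTRACT CORE (Mathlib only).  `R` a commutative ring, `ϖ : R` a non-zero-divisor, `p` a prime
with `(p : R) = u * ϖ ^ e` (`u` a unit), `a : ℕ` with `e < a * (p - 1)`.

* `pp1` : if `R` is `ϖ`-adically separated, `ϖ ^ a ∣ x` and `(1 + x) ^ p = 1` then `x = 0`;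
* `pp2` : if `R` is `ϖ`-adically separated and complete and `ϖ ^ (a + e) ∣ d`, there is `x` with
  `ϖ ^ a ∣ x` and `(1 + x) ^ p = 1 + d` (sharp successive approximation `x ↦ x - F(x)/p`; plain
  Hensel/Newton would need `a > e`);
* `pp_unique` : the `p`-th root in `1 + ϖ^a R` is unique;
* versions for `[IsAdicComplete (Ideal.span {ϖ}) R]`, and `isUnit_one_add_of_dvd`.
-/
import Mathlib

set_option autoImplicit false

namespace Fermat.Agent.S56x.Hopf.PthPower

open Finset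

/-! ### The binomial expansion, in the shape needed -/

/-- `(w + z)^p = w^p + p w^{p-1} z + p z² r + z^p` for a prime `p`. -/
theorem exists_add_pow_prime_expand {R : Type*} [CommRing R] {p : ℕ} (hp : p.Prime) (w z : R) :
    ∃ r : R, (w + z) ^ p = w ^ p + p * w ^ (p - 1) * z + p * z ^ 2 * r + z ^ p := by
  obtain ⟨k, rfl⟩ : ∃ k, p = k + 2 := ⟨p - 2, by have := hp.two_le; omega⟩
  -- the coefficients `C(p, j+2)/p`
  have hc : ∀ j ∈ range k, ∃ c : ℕ, (k + 2).choose (j + 2) = (k + 2) * c := by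
    intro j hj
    rw [mem_range] at hj
    exact hp.dvd_choose_self (by omega) (by omega)
  choose! c hc using hc
  refine ⟨∑ j ∈ range k, z ^ j * w ^ (k + 2 - (j + 2)) * (c j : R), ?_⟩
  rw [add_comm w z, add_pow, sum_range_succ, sum_range_succ', sum_range_succ']
  have hmid : ∑ j ∈ range k, z ^ (j + 1 + 1) * w ^ (k + 2 - (j + 1 + 1)) *
        ((k + 2).choose (j + 1 + 1) : R) =
      ((k + 2 : ℕ) : R) * z ^ 2 * ∑ j ∈ range k, z ^ j * w ^ (k + 2 - (j + 2)) * (c j : R) := by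
    rw [mul_sum]
    refine sum_congr rfl fun j hj => ?_
    rw [show j + 1 + 1 = j + 2 from rfl, hc j hj]
    push_cast
    ring
  rw [hmid]
  simp only [zero_add, pow_zero, one_mul, Nat.choose_zero_right, Nat.cast_one, mul_one, pow_one,
    Nat.choose_one_right, Nat.choose_self, Nat.sub_self, tsub_zero]
  rw [show k + 2 - 1 = k + 1 from rfl]
  ring

/-! ### The abstract core -/

section Core

variable {R : Type*} [CommRing R] {ϖ : R} {p e a : ℕ} {u : Rˣ}

/-- cancellation of `p = u ϖ^e`. -/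
theorem dvd_of_pow_dvd_prime_mul (hreg : ∀ x : R, ϖ * x = 0 → x = 0)
    (hpe : (p : R) = u * ϖ ^ e) {n : ℕ} {x : R} (h : ϖ ^ (n + e) ∣ (p : R) * x) : ϖ ^ n ∣ x := by
  obtain ⟨y, hy⟩ := h
  have hreg' : ∀ (m : ℕ) (x : R), ϖ ^ m * x = 0 → x = 0 := by
    intro m
    induction m with
    | zero => intro x hx; simpa using hx
    | succ m ih =>
      intro x hx
      rw [pow_succ, mul_assoc] at hx
      exact hreg x (ih _ hx)
  have h1 : ϖ ^ e * (u * x - ϖ ^ n * y) = 0 := by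
    have : ϖ ^ e * (u * x - ϖ ^ n * y) = (u * ϖ ^ e) * x - ϖ ^ (n + e) * y := by
      rw [pow_add]; ring
    rw [this, ← hpe, hy, sub_self]
  have h2 := hreg' e _ h1
  refine ⟨(u⁻¹ : Rˣ) * y, ?_⟩
  have h3 : (u : R) * x = ϖ ^ n * y := sub_eq_zero.mp h2
  calc x = (u⁻¹ : Rˣ) * ((u : R) * x) := by rw [← mul_assoc, Units.inv_mul, one_mul]
    _ = ϖ ^ n * ((u⁻¹ : Rˣ) * y) := by rw [h3]; ring

/-- **(PP1)** no non trivial `p`-torsion in `1 + ϖ^a R` for `a (p - 1) > e`. -/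
theorem pp1 (hp : p.Prime) (hreg : ∀ x : R, ϖ * x = 0 → x = 0) (hpe : (p : R) = u * ϖ ^ e)
    (hsep : ∀ x : R, (∀ n : ℕ, ϖ ^ n ∣ x) → x = 0) (ha : e < a * (p - 1)) {x : R}
    (hx : ϖ ^ a ∣ x) (hxp : (1 + x) ^ p = 1) : x = 0 := by
  obtain ⟨r, hr⟩ := exists_add_pow_prime_expand hp (1 : R) x
  rw [hxp, one_pow, one_pow, mul_one] at hr
  -- `p x = -(p x² r + x^p)`
  have hpx : (p : R) * x = -((p : R) * x ^ 2 * r + x ^ p) := by linear_combination -hr
  have ha1 : 1 ≤ a := by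
    rcases Nat.eq_zero_or_pos a with h | h
    · subst h; simp at ha
    · exact h
  have hp2 := hp.two_le
  -- improvement of the level
  have hstep : ∀ s : ℕ, a ≤ s → ϖ ^ s ∣ x → ϖ ^ (s + 1) ∣ x := by
    intro s has hs
    apply dvd_of_pow_dvd_prime_mul hreg hpe (n := s + 1)
    rw [hpx, dvd_neg]
    have hps : s + 1 + e ≤ p * s := by
      have h1 : a * (p - 1) ≤ s * (p - 1) := Nat.mul_le_mul_right _ has
      have h2 : s * (p - 1) + s = p * s := by
        obtain ⟨q, rfl⟩ : ∃ q, p = q + 1 := ⟨p - 1, by omega⟩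
        simp only [Nat.add_sub_cancel]; ring
      omega
    apply dvd_add
    · -- `p x² r`
      have h1 : ϖ ^ (e + (s + s)) ∣ (p : R) * x ^ 2 * r := by
        rw [hpe, pow_add, pow_add]
        obtain ⟨y, rfl⟩ := hs
        exact ⟨u * y ^ 2 * r, by ring⟩
      exact (pow_dvd_pow ϖ (by omega)).trans h1
    · -- `x^p`
      have h1 : ϖ ^ (p * s) ∣ x ^ p := by
        rw [mul_comm, pow_mul]
        exact pow_dvd_pow_of_dvd hs p
      exact (pow_dvd_pow ϖ hps).trans h1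
  apply hsep
  intro n
  have : ∀ m : ℕ, ϖ ^ (a + m) ∣ x := by
    intro m
    induction m with
    | zero => simpa using hx
    | succ m ih => exact hstep (a + m) (by omega) ih
  exact (pow_dvd_pow ϖ (by omega : n ≤ a + n)).trans (this n)

/-- uniqueness of `p`-th roots in `1 + ϖ^a R`. -/
theorem pp_unique (hp : p.Prime) (hreg : ∀ x : R, ϖ * x = 0 → x = 0)
    (hpe : (p : R) = u * ϖ ^ e) (hsep : ∀ x : R, (∀ n : ℕ, ϖ ^ n ∣ x) → x = 0)
    (ha : e < a * (p - 1)) {x y : R} (hx : ϖ ^ a ∣ x) (hy : ϖ ^ a ∣ y)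
    (hy1 : IsUnit (1 + y)) (hxy : (1 + x) ^ p = (1 + y) ^ p) : x = y := by
  obtain ⟨v, hv⟩ := hy1
  -- `(1 + x)(1 + y)⁻¹ = 1 + (x - y)(1 + y)⁻¹`
  set t : R := (x - y) * (v⁻¹ : Rˣ) with ht
  have h1 : (1 + x) * (v⁻¹ : Rˣ) = 1 + t := by
    have : (1 + y) * ((v⁻¹ : Rˣ) : R) = 1 := by rw [← hv, Units.mul_inv]
    rw [ht]
    linear_combination this
  have htp : (1 + t) ^ p = 1 := by
    rw [← h1, mul_pow, hxy, ← mul_pow, ← hv, Units.mul_inv, one_pow]
  have hta : ϖ ^ a ∣ t := Dvd.dvd.mul_right (dvd_sub hx hy) _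
  have ht0 := pp1 hp hreg hpe hsep ha hta htp
  have : x - y = 0 := by
    have h2 : (x - y) * ((v⁻¹ : Rˣ) : R) * (v : R) = 0 := by rw [← ht, ht0, zero_mul]
    rwa [mul_assoc, Units.inv_mul, mul_one] at h2
  exact sub_eq_zero.mp this

/-- **(PP2)** existence of `p`-th roots: every element of `1 + ϖ^{a+e} R` is the `p`-th power of
an element of `1 + ϖ^a R`, for `a (p - 1) > e`. -/
theorem pp2 (hp : p.Prime) (hpe : (p : R) = u * ϖ ^ e)
    (hsep : ∀ x : R, (∀ n : ℕ, ϖ ^ n ∣ x) → x = 0)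
    (hcomp : ∀ f : ℕ → R, (∀ n, ϖ ^ n ∣ f (n + 1) - f n) → ∃ L : R, ∀ n, ϖ ^ n ∣ L - f n)
    (ha : e < a * (p - 1)) {d : R} (hd : ϖ ^ (a + e) ∣ d) :
    ∃ x : R, ϖ ^ a ∣ x ∧ (1 + x) ^ p = 1 + d := by
  have ha1 : 1 ≤ a := by
    rcases Nat.eq_zero_or_pos a with h | h
    · subst h; simp at ha
    · exact h
  have hp2 := hp.two_le
  -- the approximation property
  let P : ℕ → R → Prop := fun n x => ϖ ^ a ∣ x ∧ ϖ ^ (a + e + n) ∣ (1 + x) ^ p - 1 - d
  have hP0 : P 0 0 := by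
    refine ⟨dvd_zero _, ?_⟩
    simpa using hd
  have hstep : ∀ n x, P n x → ∃ y, P (n + 1) y ∧ ϖ ^ n ∣ y - x := by
    rintro n x ⟨hxa, hxF⟩
    obtain ⟨t, ht⟩ := hxF
    -- `z = F(x)/p`
    set z : R := (u⁻¹ : Rˣ) * (ϖ ^ (a + n) * t) with hz
    have hpz : (p : R) * z = (1 + x) ^ p - 1 - d := by
      rw [ht, hz, hpe, show a + e + n = e + (a + n) by omega, pow_add ϖ e]
      have : (u : R) * ((u⁻¹ : Rˣ) : R) = 1 := Units.mul_inv u
      linear_combination (ϖ ^ e * (ϖ ^ (a + n) * t)) * this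
    have hzd : ϖ ^ (a + n) ∣ z := ⟨(u⁻¹ : Rˣ) * t, by rw [hz]; ring⟩
    refine ⟨x - z, ⟨dvd_sub hxa ((pow_dvd_pow ϖ (by omega)).trans hzd), ?_⟩, ?_⟩
    · obtain ⟨r, hr⟩ := exists_add_pow_prime_expand hp (1 + x) (-z)
      have hexp : (1 + (x - z)) ^ p - 1 - d =
          -((p : R) * ((1 + x) ^ (p - 1) - 1) * z) + (p : R) * z ^ 2 * r + (-z) ^ p := by
        have : 1 + (x - z) = 1 + x + -z := by ring
        rw [this, hr]
        linear_combination -hpz
      rw [hexp]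
      have hw : ϖ ^ a ∣ (1 + x) ^ (p - 1) - 1 := by
        have h1 : (1 + x) - 1 ∣ (1 + x) ^ (p - 1) - 1 ^ (p - 1) := sub_dvd_pow_sub_pow _ _ _
        rw [one_pow, add_sub_cancel_left] at h1
        exact hxa.trans h1
      apply dvd_add
      · apply dvd_add
        · rw [dvd_neg]
          have h1 : ϖ ^ (e + a + (a + n)) ∣ (p : R) * ((1 + x) ^ (p - 1) - 1) * z := by
            rw [pow_add, pow_add, hpe]
            exact mul_dvd_mul (mul_dvd_mul (Dvd.intro_left _ rfl) hw) hzd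
          exact (pow_dvd_pow ϖ (by omega)).trans h1
        · have h1 : ϖ ^ (e + (a + n) * 2) ∣ (p : R) * z ^ 2 * r := by
            rw [pow_add, pow_mul, hpe]
            exact Dvd.dvd.mul_right
              (mul_dvd_mul (Dvd.intro_left _ rfl) (pow_dvd_pow_of_dvd hzd 2)) _
          exact (pow_dvd_pow ϖ (by nlinarith)).trans h1
      · have h1 : ϖ ^ ((a + n) * p) ∣ (-z) ^ p := by
          rw [pow_mul]
          exact pow_dvd_pow_of_dvd ((dvd_neg).mpr hzd) p
        have hpa : a + e + 1 ≤ a * p := by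
          obtain ⟨q, rfl⟩ : ∃ q, p = q + 1 := ⟨p - 1, by omega⟩
          simp only [Nat.add_sub_cancel] at ha
          rw [mul_add, mul_one]; omega
        have : a + e + (n + 1) ≤ (a + n) * p := by
          have hn : n ≤ n * p := Nat.le_mul_of_pos_right n (by omega)
          rw [add_mul]; omega
        exact (pow_dvd_pow ϖ this).trans h1
    · have : x - z - x = -z := by ring
      rw [this, dvd_neg]
      exact (pow_dvd_pow ϖ (by omega)).trans hzd
  -- the sequence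
  have hseq : ∃ f : ℕ → R, (∀ n, P n (f n)) ∧ ∀ n, ϖ ^ n ∣ f (n + 1) - f n := by
    classical
    let g : (n : ℕ) → {x : R // P n x} := fun n =>
      Nat.rec (motive := fun n => {x : R // P n x}) ⟨0, hP0⟩
        (fun n x => ⟨Classical.choose (hstep n x.1 x.2),
          (Classical.choose_spec (hstep n x.1 x.2)).1⟩) n
    refine ⟨fun n => (g n).1, fun n => (g n).2, fun n => ?_⟩
    exact (Classical.choose_spec (hstep n (g n).1 (g n).2)).2
  obtain ⟨f, hfP, hfc⟩ := hseq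
  obtain ⟨L, hL⟩ := hcomp f hfc
  refine ⟨L, ?_, ?_⟩
  · have h1 : ϖ ^ a ∣ L - f a := hL a
    have h2 : ϖ ^ a ∣ f a := (hfP a).1
    have : L = (L - f a) + f a := by ring
    rw [this]
    exact dvd_add h1 h2
  · have : (1 + L) ^ p - 1 - d = 0 := by
      apply hsep
      intro n
      have h1 : ϖ ^ n ∣ (1 + f n) ^ p - 1 - d :=
        (pow_dvd_pow ϖ (by omega)).trans (hfP n).2
      have h2 : ϖ ^ n ∣ (1 + L) ^ p - (1 + f n) ^ p := by
        have h3 : (1 + L) - (1 + f n) ∣ (1 + L) ^ p - (1 + f n) ^ p := sub_dvd_pow_sub_pow _ _ _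
        rw [add_sub_add_left_eq_sub] at h3
        exact (hL n).trans h3
      have : (1 + L) ^ p - 1 - d = ((1 + L) ^ p - (1 + f n) ^ p) + ((1 + f n) ^ p - 1 - d) := by
        ring
      rw [this]
      exact dvd_add h2 h1
    linear_combination this

end Core

/-! ### `ϖ`-adically complete rings -/

section Adic

variable {R : Type*} [CommRing R] (ϖ : R)

/-- `ϖ`-adic separatedness in elementary form. -/
theorem sep_of_isHausdorff [IsHausdorff (Ideal.span {ϖ}) R] :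
    ∀ x : R, (∀ n : ℕ, ϖ ^ n ∣ x) → x = 0 := by
  intro x hx
  apply IsHausdorff.haus (I := Ideal.span {ϖ}) ‹_› x
  intro n
  rw [SModEq.zero, Ideal.span_singleton_pow, smul_eq_mul, Ideal.mul_top,
    Ideal.mem_span_singleton]
  exact hx n

/-- `ϖ`-adic completeness in elementary form. -/
theorem comp_of_isPrecomplete [IsPrecomplete (Ideal.span {ϖ}) R] :
    ∀ f : ℕ → R, (∀ n, ϖ ^ n ∣ f (n + 1) - f n) → ∃ L : R, ∀ n, ϖ ^ n ∣ L - f n := by
  intro f hf
  have hmem : ∀ (n : ℕ) (x : R),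
      x ∈ (Ideal.span {ϖ} ^ n • ⊤ : Submodule R R) ↔ ϖ ^ n ∣ x := by
    intro n x
    rw [Ideal.span_singleton_pow, smul_eq_mul, Ideal.mul_top, Ideal.mem_span_singleton]
  have hcauchy : ∀ {m n : ℕ}, m ≤ n →
      f m ≡ f n [SMOD (Ideal.span {ϖ} ^ m • ⊤ : Submodule R R)] := by
    intro m n hmn
    rw [SModEq.sub_mem, hmem]
    induction n, hmn using Nat.le_induction with
    | base => simp
    | succ n hmn ih =>
      have : f m - f (n + 1) = (f m - f n) - (f (n + 1) - f n) := by ring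
      rw [this]
      exact dvd_sub ih ((pow_dvd_pow ϖ hmn).trans (hf n))
  obtain ⟨L, hL⟩ := IsPrecomplete.prec (I := Ideal.span {ϖ}) ‹_› hcauchy
  refine ⟨L, fun n => ?_⟩
  have := hL n
  rw [SModEq.sub_mem, hmem] at this
  rw [← neg_sub, dvd_neg]
  exact this

/-- `1 + ϖ R ⊆ Rˣ` in a `ϖ`-adically complete ring. -/
theorem isUnit_one_add_of_dvd [IsAdicComplete (Ideal.span {ϖ}) R] {x : R} (hx : ϖ ∣ x) :
    IsUnit (1 + x) := by
  have h1 : x ∈ (⊥ : Ideal R).jacobson :=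
    IsAdicComplete.le_jacobson_bot (Ideal.span {ϖ}) (Ideal.mem_span_singleton.mpr hx)
  have := Ideal.mem_jacobson_bot.mp h1 1
  rwa [mul_one, add_comm] at this

variable {ϖ} {p e a : ℕ} {u : Rˣ}

/-- **(PP1)** in a `ϖ`-adically separated ring. -/
theorem pp1_adic [IsHausdorff (Ideal.span {ϖ}) R] (hp : p.Prime)
    (hreg : ∀ x : R, ϖ * x = 0 → x = 0) (hpe : (p : R) = u * ϖ ^ e) (ha : e < a * (p - 1))
    {x : R} (hx : ϖ ^ a ∣ x) (hxp : (1 + x) ^ p = 1) : x = 0 :=
  pp1 hp hreg hpe (sep_of_isHausdorff ϖ) ha hx hxp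

/-- **(PP2)** in a `ϖ`-adically complete ring. -/
theorem pp2_adic [IsAdicComplete (Ideal.span {ϖ}) R] (hp : p.Prime)
    (hpe : (p : R) = u * ϖ ^ e) (ha : e < a * (p - 1)) {d : R} (hd : ϖ ^ (a + e) ∣ d) :
    ∃ x : R, ϖ ^ a ∣ x ∧ (1 + x) ^ p = 1 + d :=
  pp2 hp hpe (sep_of_isHausdorff ϖ) (comp_of_isPrecomplete ϖ) ha hd

end Adic

/-! ### Finite free algebras over a complete discrete valuation ring -/

section DVR

open IsLocalRing

variable {O : Type*} [CommRing O] [IsDomain O] [IsDiscreteValuationRing O]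
  {R : Type*} [CommRing R] [Algebra O R] [Module.Free O R] [Module.Finite O R]

omit [IsDomain O] [IsDiscreteValuationRing O] [Module.Finite O R] in
/-- a non zero element of the domain `O` is a non-zero-divisor on the free module `R`. -/
theorem regular_algebraMap [IsDomain O] {ϖ : O} (hϖ : ϖ ≠ 0) :
    ∀ x : R, algebraMap O R ϖ * x = 0 → x = 0 := by
  intro x hx
  rw [← Algebra.smul_def] at hx
  exact (smul_eq_zero.mp hx).resolve_left hϖ

omit [IsDomain O] [IsDiscreteValuationRing O] [Module.Free O R] [Module.Finite O R] in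
/-- divisibility by `ϖ^n` in a free module of finite rank, coordinatewise. -/
theorem pow_dvd_iff_repr {ι : Type*} [Fintype ι] (b : Module.Basis ι O R) (ϖ : O) (n : ℕ)
    (x : R) : algebraMap O R ϖ ^ n ∣ x ↔ ∀ i, ϖ ^ n ∣ b.repr x i := by
  constructor
  · rintro ⟨y, rfl⟩ i
    rw [← map_pow, ← Algebra.smul_def, map_smul]
    exact ⟨b.repr y i, by simp⟩
  · intro h
    choose c hc using h
    refine ⟨∑ i, c i • b i, ?_⟩
    rw [← map_pow, ← Algebra.smul_def, Finset.smul_sum]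
    conv_lhs => rw [← b.sum_repr x]
    refine Finset.sum_congr rfl fun i _ => ?_
    rw [hc i, mul_smul]

omit [IsDomain O] [IsDiscreteValuationRing O] [Module.Free O R] [Module.Finite O R] in
/-- separatedness passes from `O` to a free module of finite rank. -/
theorem sep_of_basis {ι : Type*} [Fintype ι] (b : Module.Basis ι O R) {ϖ : O}
    (hsep : ∀ x : O, (∀ n : ℕ, ϖ ^ n ∣ x) → x = 0) :
    ∀ x : R, (∀ n : ℕ, algebraMap O R ϖ ^ n ∣ x) → x = 0 := by
  intro x hx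
  apply b.repr.injective
  ext i
  rw [map_zero, Finsupp.zero_apply]
  exact hsep _ fun n => (pow_dvd_iff_repr b ϖ n x).mp (hx n) i

omit [IsDomain O] [IsDiscreteValuationRing O] [Module.Free O R] [Module.Finite O R] in
/-- completeness passes from `O` to a free module of finite rank. -/
theorem comp_of_basis {ι : Type*} [Fintype ι] (b : Module.Basis ι O R) {ϖ : O}
    (hcomp : ∀ f : ℕ → O, (∀ n, ϖ ^ n ∣ f (n + 1) - f n) → ∃ L : O, ∀ n, ϖ ^ n ∣ L - f n) :
    ∀ f : ℕ → R, (∀ n, algebraMap O R ϖ ^ n ∣ f (n + 1) - f n) →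
      ∃ L : R, ∀ n, algebraMap O R ϖ ^ n ∣ L - f n := by
  intro f hf
  have hcoord : ∀ i, ∃ L : O, ∀ n, ϖ ^ n ∣ L - b.repr (f n) i := by
    intro i
    apply hcomp fun n => b.repr (f n) i
    intro n
    have := (pow_dvd_iff_repr b ϖ n _).mp (hf n) i
    rwa [map_sub, Finsupp.sub_apply] at this
  choose L hL using hcoord
  refine ⟨∑ i, L i • b i, fun n => ?_⟩
  rw [pow_dvd_iff_repr b ϖ n]
  intro i
  rw [map_sub, Finsupp.sub_apply, b.repr_sum_self]
  exact hL i n

variable [IsAdicComplete (maximalIdeal O) O]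

/-- the hypotheses of `pp1`, `pp2` for a finite free algebra over a complete discrete valuation
ring, with `ϖ` the image of a uniformizer. -/
theorem hyps_of_dvr {ϖ : O} (hϖ : Irreducible ϖ) :
    (∀ x : R, algebraMap O R ϖ * x = 0 → x = 0) ∧
    (∀ x : R, (∀ n : ℕ, algebraMap O R ϖ ^ n ∣ x) → x = 0) ∧
    (∀ f : ℕ → R, (∀ n, algebraMap O R ϖ ^ n ∣ f (n + 1) - f n) →
      ∃ L : R, ∀ n, algebraMap O R ϖ ^ n ∣ L - f n) := by
  have hmax : maximalIdeal O = Ideal.span {ϖ} := hϖ.maximalIdeal_eq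
  have : IsAdicComplete (Ideal.span {ϖ}) O := hmax ▸ (inferInstance : IsAdicComplete _ O)
  let b := Module.Free.chooseBasis O R
  exact ⟨regular_algebraMap hϖ.ne_zero, sep_of_basis b (sep_of_isHausdorff ϖ),
    comp_of_basis b (comp_of_isPrecomplete ϖ)⟩

variable {p e a : ℕ}

/-- **(PP1)** for a finite free algebra `R` over a complete discrete valuation ring `O` with
uniformizer `ϖ`, `p = u ϖ^e`, `e < a (p - 1)`: no `p`-torsion in `1 + ϖ^a R`. -/
theorem pp1_dvr (hp : p.Prime) {ϖ : O} (hϖ : Irreducible ϖ) {u : Oˣ}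
    (hpe : (p : O) = u * ϖ ^ e) (ha : e < a * (p - 1)) {x : R}
    (hx : algebraMap O R ϖ ^ a ∣ x) (hxp : (1 + x) ^ p = 1) : x = 0 := by
  obtain ⟨hreg, hsep, -⟩ := hyps_of_dvr (R := R) hϖ
  have hpe' : (p : R) = (Units.map (algebraMap O R : O →* R) u : Rˣ) * algebraMap O R ϖ ^ e := by
    have := congrArg (algebraMap O R) hpe
    simpa using this
  exact pp1 hp hreg hpe' hsep ha hx hxp

/-- **(PP2)** for a finite free algebra `R` over a complete discrete valuation ring `O`: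
`1 + ϖ^{a+e} R ⊆ (1 + ϖ^a R)^p`. -/
theorem pp2_dvr (hp : p.Prime) {ϖ : O} (hϖ : Irreducible ϖ) {u : Oˣ}
    (hpe : (p : O) = u * ϖ ^ e) (ha : e < a * (p - 1)) {d : R}
    (hd : algebraMap O R ϖ ^ (a + e) ∣ d) :
    ∃ x : R, algebraMap O R ϖ ^ a ∣ x ∧ (1 + x) ^ p = 1 + d := by
  obtain ⟨-, hsep, hcomp⟩ := hyps_of_dvr (R := R) hϖ
  have hpe' : (p : R) = (Units.map (algebraMap O R : O →* R) u : Rˣ) * algebraMap O R ϖ ^ e := by
    have := congrArg (algebraMap O R) hpe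
    simpa using this
  exact pp2 hp hpe' hsep hcomp ha hd

/-- uniqueness of `p`-th roots in `1 + ϖ^a R`. -/
theorem pp_unique_dvr (hp : p.Prime) {ϖ : O} (hϖ : Irreducible ϖ) {u : Oˣ}
    (hpe : (p : O) = u * ϖ ^ e) (ha : e < a * (p - 1)) {x y : R}
    (hx : algebraMap O R ϖ ^ a ∣ x) (hy : algebraMap O R ϖ ^ a ∣ y)
    (hy1 : IsUnit (1 + y)) (hxy : (1 + x) ^ p = (1 + y) ^ p) : x = y := by
  obtain ⟨hreg, hsep, -⟩ := hyps_of_dvr (R := R) hϖ
  have hpe' : (p : R) = (Units.map (algebraMap O R : O →* R) u : Rˣ) * algebraMap O R ϖ ^ e := by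
    have := congrArg (algebraMap O R) hpe
    simpa using this
  exact pp_unique hp hreg hpe' hsep ha hx hy hy1 hxy

omit [IsAdicComplete (maximalIdeal O) O] in
/-- a prime number `p ≠ 0` of `O` is `u ϖ^e`. -/
theorem exists_prime_eq_unit_mul_pow (hpO : (p : O) ≠ 0) {ϖ : O} (hϖ : Irreducible ϖ) :
    ∃ (e : ℕ) (u : Oˣ), (p : O) = u * ϖ ^ e :=
  IsDiscreteValuationRing.eq_unit_mul_pow_irreducible hpO hϖ

omit [IsAdicComplete (maximalIdeal O) O] [Module.Free O R] [Module.Finite O R] in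
/-- the levels `I_n = 𝔪_O^n R` in terms of divisibility by the uniformizer. -/
theorem mem_map_maximalIdeal_pow_iff {ϖ : O} (hϖ : Irreducible ϖ) (n : ℕ) (x : R) :
    x ∈ Ideal.map (algebraMap O R) (maximalIdeal O ^ n) ↔ algebraMap O R ϖ ^ n ∣ x := by
  rw [hϖ.maximalIdeal_eq, Ideal.span_singleton_pow, Ideal.map_span, Set.image_singleton,
    Ideal.mem_span_singleton, map_pow]

end DVR

end Fermat.Agent.S56x.Hopf.PthPower
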