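/-
P-S56, block (A), HOPF-1: Cartier duality in "Hom style".

For a cocommutative coalgebra `C` over `O` and a commutative `O`-algebra `B` the module
`Hom_O(C, B)` with the convolution product is a commutative `B`-algebra `CRing O C B`
(for `C = H` finite free this is `H^D ⊗ B`).  For a commutative cocommutative Hopf algebra `H`
the group of points `H →ₐ[O] B` (convolution) embeds multiplicatively into `CRing O H B`,
with image the "group-like" elements: `z 1 = 1` and `Delta z = tens z z` inside
`CRing O (H ⊗ H) B`.  For units this is `delta z = 1` for a group hom `delta`.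
Everything is functorial in `B`, and reduction modulo an ideal of `B` is transparent:
the kernel consists of the maps with values in the ideal.
-/
import Mathlib

set_option linter.style.longLine false
set_option linter.unusedSectionVars false
set_option linter.unusedVariables false
set_option linter.unusedSimpArgs false

noncomputable section

namespace Fermat.Agent.S56x.Hopf

open TensorProduct WithConv Coalgebra

universe u v w w'

/-! ## Part 1: the convolution ring of a cocommutative coalgebra -/

section Coalg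

variable (O : Type u) (C : Type v) (B : Type w) {B' : Type w'}
  [CommRing O] [AddCommGroup C] [Module O C] [Coalgebra O C] [Coalgebra.IsCocomm O C]
  [CommRing B] [Algebra O B] [CommRing B'] [Algebra O B']

/-- The Cartier ring `Hom_O(C, B)` with convolution product. -/
abbrev CRing : Type (max v w) := WithConv (C →ₗ[O] B)

example : CommRing (CRing O C B) := inferInstance
example : Algebra B (CRing O C B) := inferInstance

variable {O C B}

@[simp] lemma CRing.one_apply (c : C) : (1 : CRing O C B) c = algebraMap O B (counit (R := O) c) := rfl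

lemma CRing.smul_apply (b : B) (f : CRing O C B) (c : C) : (b • f) c = b * f c := rfl

lemma CRing.algebraMap_apply (b : B) (c : C) :
    algebraMap B (CRing O C B) b c = b * algebraMap O B (counit (R := O) c) := rfl

@[ext] lemma CRing.ext' {f g : CRing O C B} (h : ∀ c, f c = g c) : f = g :=
  WithConv.ext (LinearMap.ext h)

/-- Functoriality in `B`: post-composition with an algebra hom is a ring hom. -/
def mapR (φ : B →ₐ[O] B') : CRing O C B →+* CRing O C B' where
  toFun f := toConv (φ.toLinearMap.comp f.ofConv)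
  map_one' := by
    ext c; simp
  map_mul' f g := by
    apply WithConv.ext
    exact LinearMap.algHom_comp_convMul_distrib φ f g
  map_zero' := by ext c; simp
  map_add' f g := by ext c; simp

@[simp] lemma mapR_apply (φ : B →ₐ[O] B') (f : CRing O C B) (c : C) : mapR φ f c = φ (f c) := rfl


lemma mapR_smul (φ : B →ₐ[O] B') (b : B) (f : CRing O C B) :
    mapR φ (b • f) = φ b • mapR φ f := by
  ext c; simp [CRing.smul_apply]

/-- The ideal of maps with values in the ideal `a`: the kernel of reduction modulo `a`. -/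
def levelIdeal (a : Ideal B) : Ideal (CRing O C B) :=
  RingHom.ker (mapR (C := C) (Ideal.Quotient.mkₐ O a))

lemma mem_levelIdeal {a : Ideal B} {f : CRing O C B} :
    f ∈ levelIdeal a ↔ ∀ c, f c ∈ a := by
  unfold levelIdeal
  rw [RingHom.mem_ker]
  constructor
  · intro h c
    have := congrArg (fun g : CRing O C (B ⧸ a) => g c) h
    simpa [Ideal.Quotient.eq_zero_iff_mem] using this
  · intro h
    ext c
    simpa [Ideal.Quotient.eq_zero_iff_mem] using h c

lemma levelIdeal_mono {a b : Ideal B} (h : a ≤ b) :
    levelIdeal (O := O) (C := C) a ≤ levelIdeal b := fun f hf =>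
  mem_levelIdeal.2 fun c => h (mem_levelIdeal.1 hf c)

lemma mapR_eq_iff_sub_mem (a : Ideal B) (f g : CRing O C B) :
    mapR (Ideal.Quotient.mkₐ O a) f = mapR (Ideal.Quotient.mkₐ O a) g ↔ f - g ∈ levelIdeal a := by
  unfold levelIdeal
  rw [RingHom.mem_ker, map_sub, sub_eq_zero]

/-- Reduction is surjective when `C` is projective (e.g. finite free). -/
lemma mapR_surjective [Module.Projective O C] (φ : B →ₐ[O] B') (hφ : Function.Surjective φ) :
    Function.Surjective (mapR (C := C) φ) := by
  intro f'
  obtain ⟨g, hg⟩ := Module.projective_lifting_property φ.toLinearMap f'.ofConv hφ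
  exact ⟨toConv g, WithConv.ext hg⟩

/-- Coordinates with respect to a basis of `C`. -/
def coordEquiv {ι : Type*} (b : Module.Basis ι O C) : CRing O C B ≃ₗ[B] (ι → B) :=
  (WithConv.linearEquiv B (C →ₗ[O] B)).trans (b.constr B).symm

@[simp] lemma coordEquiv_apply {ι : Type*} (b : Module.Basis ι O C) (f : CRing O C B) (i : ι) :
    coordEquiv b f i = f (b i) := rfl

lemma coordEquiv_symm_apply_basis {ι : Type*} (b : Module.Basis ι O C) (x : ι → B) (i : ι) :
    (coordEquiv (B := B) b).symm x (b i) = x i := by
  have := congrFun ((coordEquiv (B := B) b).apply_symm_apply x) i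
  simpa using this

instance [Module.Free O C] [Module.Finite O C] : Module.Free B (CRing O C B) :=
  Module.Free.of_equiv (coordEquiv (Module.Free.chooseBasis O C)).symm

instance [Module.Free O C] [Module.Finite O C] : Module.Finite B (CRing O C B) :=
  Module.Finite.equiv (coordEquiv (Module.Free.chooseBasis O C)).symm

lemma mem_levelIdeal_iff_basis {ι : Type*} (b : Module.Basis ι O C) {a : Ideal B}
    {f : CRing O C B} : f ∈ levelIdeal a ↔ ∀ i, f (b i) ∈ a := by
  rw [mem_levelIdeal]
  refine ⟨fun h i => h _, fun h c => ?_⟩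
  rw [← b.linearCombination_repr c, Finsupp.linearCombination_apply, Finsupp.sum]
  change f.ofConv _ ∈ a
  rw [map_sum]
  refine a.sum_mem fun i _ => ?_
  rw [map_smul, Algebra.smul_def]
  exact a.mul_mem_left _ (h i)

/-- Level with respect to a principal ideal: divisibility in the `B`-module `CRing O C B`. -/
lemma mem_levelIdeal_span_singleton [Module.Free O C] {x : B} {f : CRing O C B} :
    f ∈ levelIdeal (Ideal.span {x}) ↔ ∃ g : CRing O C B, f = x • g := by
  constructor
  · intro h
    let b := Module.Free.chooseBasis O C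
    have h' : ∀ i, ∃ y : B, f (b i) = x * y := fun i => by
      have := mem_levelIdeal.1 h (b i)
      rw [Ideal.mem_span_singleton'] at this
      obtain ⟨y, hy⟩ := this
      exact ⟨y, by rw [← hy, mul_comm]⟩
    choose y hy using h'
    refine ⟨(coordEquiv b).symm y, ?_⟩
    apply (coordEquiv (B := B) b).injective
    ext i
    simp [hy i, coordEquiv_symm_apply_basis, CRing.smul_apply]
  · rintro ⟨g, rfl⟩
    refine mem_levelIdeal.2 fun c => ?_
    rw [CRing.smul_apply]
    exact Ideal.mul_mem_right _ _ (Ideal.mem_span_singleton_self x)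

/-- `levelIdeal a` is the extension `a • ⊤` when `C` is finite free. -/
lemma levelIdeal_eq_map [Module.Free O C] [Module.Finite O C] (a : Ideal B) :
    levelIdeal (O := O) (C := C) a = a.map (algebraMap B (CRing O C B)) := by
  apply le_antisymm
  · intro f hf
    let b := Module.Free.chooseBasis O C
    have hsum : f = ∑ i, f (b i) • (coordEquiv (B := B) b).symm (Pi.single i 1) := by
      apply (coordEquiv (B := B) b).injective
      ext j
      simp [Finset.sum_apply, Pi.single_apply, coordEquiv_symm_apply_basis, CRing.smul_apply]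
    rw [hsum]
    refine Ideal.sum_mem _ fun i _ => ?_
    rw [Algebra.smul_def]
    exact Ideal.mul_mem_right _ _ (Ideal.mem_map_of_mem _ (mem_levelIdeal.1 hf _))
  · rw [Ideal.map_le_iff_le_comap]
    intro x hx
    rw [Ideal.mem_comap]
    refine mem_levelIdeal.2 fun c => ?_
    rw [CRing.algebraMap_apply]
    exact Ideal.mul_mem_right _ _ hx


/-- For finite free `C`, levels inside the Jacobson radical of `B` lie in the Jacobson radical. -/
lemma levelIdeal_le_jacobson [Module.Free O C] [Module.Finite O C] {a : Ideal B}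
    (ha : a ≤ Ideal.jacobson ⊥) :
    levelIdeal (O := O) (C := C) a ≤ Ideal.jacobson (⊥ : Ideal (CRing O C B)) := by
  rw [levelIdeal_eq_map, Ideal.jacobson, le_sInf_iff]
  rintro M ⟨-, hM⟩
  have : Algebra.IsIntegral B (CRing O C B) := Algebra.IsIntegral.of_finite B _
  have := hM
  have hmax : (M.comap (algebraMap B (CRing O C B))).IsMaximal :=
    Ideal.isMaximal_comap_of_isIntegral_of_isMaximal (R := B) M
  rw [Ideal.map_le_iff_le_comap]
  refine ha.trans ?_
  rw [Ideal.jacobson]
  exact sInf_le ⟨bot_le, hmax⟩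

/-- Units lift along reduction modulo an ideal inside the Jacobson radical. -/
lemma isUnit_of_isUnit_mapR [Module.Free O C] [Module.Finite O C] {a : Ideal B}
    (ha : a ≤ Ideal.jacobson ⊥) {z : CRing O C B}
    (hz : IsUnit (mapR (C := C) (Ideal.Quotient.mkₐ O a) z)) : IsUnit z := by
  obtain ⟨w', hw'⟩ := hz.exists_right_inv
  obtain ⟨w, rfl⟩ := mapR_surjective (C := C) (Ideal.Quotient.mkₐ O a)
    (Ideal.Quotient.mkₐ_surjective O a) w'
  have hmem : z * w - 1 ∈ levelIdeal (O := O) (C := C) a := by
    unfold levelIdeal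
    rw [RingHom.mem_ker, map_sub, map_mul, hw', map_one, sub_self]
  have hu : IsUnit (z * w) :=
    Ideal.isUnit_of_sub_one_mem_jacobson_bot _ (levelIdeal_le_jacobson ha hmem)
  exact isUnit_of_mul_isUnit_left hu

/-- Functoriality in the coalgebra: pre-composition with a coalgebra hom is an algebra hom. -/
def comapR {C' : Type*} [AddCommGroup C'] [Module O C'] [Coalgebra O C'] [Coalgebra.IsCocomm O C']
    (h : C' →ₗc[O] C) : CRing O C B →ₐ[B] CRing O C' B where
  toFun f := toConv (f.ofConv.comp h.toLinearMap)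
  map_one' := by
    ext c
    simp [CoalgHomClass.counit_comp_apply]
  map_mul' f g := by
    apply WithConv.ext
    exact LinearMap.convMul_comp_coalgHom_distrib f g h
  map_zero' := by ext c; simp
  map_add' f g := by ext c; simp
  commutes' b := by
    ext c
    simp [CRing.algebraMap_apply, CoalgHomClass.counit_comp_apply]

@[simp] lemma comapR_apply {C' : Type*} [AddCommGroup C'] [Module O C'] [Coalgebra O C']
    [Coalgebra.IsCocomm O C'] (h : C' →ₗc[O] C) (f : CRing O C B) (c : C') :
    comapR h f c = f (h c) := rfl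

lemma mapR_comapR {C' : Type*} [AddCommGroup C'] [Module O C'] [Coalgebra O C']
    [Coalgebra.IsCocomm O C'] (h : C' →ₗc[O] C) (φ : B →ₐ[O] B') (f : CRing O C B) :
    mapR φ (comapR h f) = comapR h (mapR φ f) := rfl

lemma comapR_mem_levelIdeal {C' : Type*} [AddCommGroup C'] [Module O C'] [Coalgebra O C']
    [Coalgebra.IsCocomm O C'] (h : C' →ₗc[O] C) {a : Ideal B} {f : CRing O C B}
    (hf : f ∈ levelIdeal a) : comapR h f ∈ levelIdeal a :=
  mem_levelIdeal.2 fun c => mem_levelIdeal.1 hf _

end Coalg


/-! ## Part 2: points of a bialgebra inside the convolution ring -/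

section Bialg

variable {O : Type u} {H : Type v} {B : Type w} {B' : Type w'}
  [CommRing O] [CommRing H] [Bialgebra O H] [Coalgebra.IsCocomm O H]
  [CommRing B] [Algebra O B] [CommRing B'] [Algebra O B']

/-- The points `H →ₐ[O] B` (convolution monoid) inside the convolution ring. -/
def ptsHom : WithConv (H →ₐ[O] B) →* CRing O H B where
  toFun g := toConv g.ofConv.toLinearMap
  map_one' := AlgHom.toLinearMap_convOne
  map_mul' := AlgHom.toLinearMap_convMul

@[simp] lemma ptsHom_apply (g : WithConv (H →ₐ[O] B)) (h : H) : ptsHom g h = g h := rfl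

lemma ptsHom_injective : Function.Injective (ptsHom (O := O) (H := H) (B := B)) := by
  intro f g hfg
  apply WithConv.ext
  apply AlgHom.ext
  intro h
  have := congrArg (fun z : CRing O H B => z h) hfg
  simpa using this

/-- Functoriality of points in `B`. -/
def mapPts (φ : B →ₐ[O] B') : WithConv (H →ₐ[O] B) →* WithConv (H →ₐ[O] B') where
  toFun g := toConv (φ.comp g.ofConv)
  map_one' := by
    apply WithConv.ext
    apply AlgHom.ext
    intro h
    simp
  map_mul' f g := by
    apply WithConv.ext
    exact AlgHom.comp_convMul_distrib φ f g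

@[simp] lemma mapPts_apply (φ : B →ₐ[O] B') (g : WithConv (H →ₐ[O] B)) (h : H) :
    mapPts φ g h = φ (g h) := rfl

lemma ptsHom_mapPts (φ : B →ₐ[O] B') (g : WithConv (H →ₐ[O] B)) :
    ptsHom (mapPts φ g) = mapR φ (ptsHom g) := rfl

/-- If the universal point is killed by `n`, every point is. -/
lemma pts_pow_eq_one {n : ℕ} (hn : (toConv (AlgHom.id O H)) ^ n = 1)
    (g : WithConv (H →ₐ[O] B)) : g ^ n = 1 := by
  have h1 : mapPts g.ofConv (toConv (AlgHom.id O H)) = g := by
    apply WithConv.ext
    apply AlgHom.ext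
    intro h
    rfl
  rw [← h1, ← map_pow, hn, map_one]

/-- `Delta f = f ∘ mul`: the comultiplication of the Cartier dual. -/
def Delta : CRing O H B →ₐ[B] CRing O (H ⊗[O] H) B :=
  comapR (Bialgebra.mulCoalgHom O H)

@[simp] lemma Delta_apply_tmul (f : CRing O H B) (x y : H) :
    Delta f (x ⊗ₜ[O] y) = f (x * y) := rfl

/-- `tens (f, g) = (x ⊗ y ↦ f x * g y)`, multiplicative in the pair. -/
def tens : CRing O H B × CRing O H B →* CRing O (H ⊗[O] H) B where
  toFun fg := toConv ((LinearMap.mul' O B).comp (TensorProduct.map fg.1.ofConv fg.2.ofConv))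
  map_one' := by
    apply WithConv.ext
    apply TensorProduct.ext'
    intro x y
    simp [Algebra.smul_def, mul_comm]
  map_mul' fg hk := by
    apply WithConv.ext
    have h1 := TensorProduct.map_convMul_map (R := O) (f := fg.1) (h := hk.1) (g := fg.2) (k := hk.2)
    have h2 := LinearMap.algHom_comp_convMul_distrib (Algebra.TensorProduct.lmul' O (S := B))
      (toConv (TensorProduct.map fg.1.ofConv fg.2.ofConv))
      (toConv (TensorProduct.map hk.1.ofConv hk.2.ofConv))
    rw [h1] at h2
    exact h2

@[simp] lemma tens_apply_tmul (f g : CRing O H B) (x y : H) :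
    tens (f, g) (x ⊗ₜ[O] y) = f x * g y := rfl

lemma mapR_Delta (φ : B →ₐ[O] B') (f : CRing O H B) :
    mapR φ (Delta f) = Delta (mapR φ f) := rfl

lemma mapR_tens (φ : B →ₐ[O] B') (f g : CRing O H B) :
    mapR φ (tens (f, g)) = tens (mapR φ f, mapR φ g) := by
  apply WithConv.ext
  apply TensorProduct.ext'
  intro x y
  change φ (f x * g y) = φ (f x) * φ (g y)
  exact map_mul φ _ _

lemma Delta_mem_levelIdeal {a : Ideal B} {f : CRing O H B} (hf : f ∈ levelIdeal a) :
    Delta f ∈ levelIdeal a := comapR_mem_levelIdeal _ hf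

/-- Cartier: the points are exactly the group-like elements. -/
lemma mem_range_ptsHom_iff (z : CRing O H B) :
    z ∈ Set.range (ptsHom (O := O) (H := H) (B := B)) ↔ z 1 = 1 ∧ Delta z = tens (z, z) := by
  constructor
  · rintro ⟨g, rfl⟩
    refine ⟨by simp, ?_⟩
    apply WithConv.ext
    apply TensorProduct.ext'
    intro x y
    change ptsHom g (x * y) = ptsHom g x * ptsHom g y
    simp
  · rintro ⟨h1, h2⟩
    have hmul : ∀ x y, z.ofConv (x * y) = z.ofConv x * z.ofConv y := fun x y => by
      have := congrArg (fun w : CRing O (H ⊗[O] H) B => w (x ⊗ₜ[O] y)) h2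
      simpa using this
    exact ⟨toConv (AlgHom.ofLinearMap z.ofConv h1 hmul), rfl⟩

end Bialg

/-! ## Part 3: units; `delta` -/

section Units

variable {O : Type u} {H : Type v} {B : Type w} {B' : Type w'}
  [CommRing O] [CommRing H] [Bialgebra O H] [Coalgebra.IsCocomm O H]
  [CommRing B] [Algebra O B] [CommRing B'] [Algebra O B']

/-- `z ↦ tens (z, z)` as a monoid hom. -/
def diagTens : CRing O H B →* CRing O (H ⊗[O] H) B :=
  tens.comp ((MonoidHom.id _).prod (MonoidHom.id _))

@[simp] lemma diagTens_apply (z : CRing O H B) : diagTens z = tens (z, z) := rfl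

/-- `delta z = Delta z * (z ⊗ z)⁻¹`, a group hom on units. -/
def delta : (CRing O H B)ˣ →* (CRing O (H ⊗[O] H) B)ˣ :=
  Units.map (Delta (O := O) (H := H) (B := B)).toRingHom.toMonoidHom / Units.map diagTens

lemma delta_eq_one_iff (u : (CRing O H B)ˣ) :
    delta u = 1 ↔ Delta (u : CRing O H B) = tens ((u : CRing O H B), (u : CRing O H B)) := by
  unfold delta
  rw [MonoidHom.div_apply, div_eq_one, Units.ext_iff]
  rfl

/-- A unit with `Delta z = z ⊗ z` automatically has `z 1 = 1`. -/
lemma apply_one_eq_one_of_isUnit {z : CRing O H B} (hz : IsUnit z)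
    (h : Delta z = tens (z, z)) : z 1 = 1 := by
  have h1 : z = z 1 • z := by
    ext x
    have := congrArg (fun w : CRing O (H ⊗[O] H) B => w (x ⊗ₜ[O] 1)) h
    simp only [Delta_apply_tmul, tens_apply_tmul, mul_one] at this
    rw [CRing.smul_apply, mul_comm]
    exact this
  obtain ⟨u, rfl⟩ := hz
  have h2 : (1 : CRing O H B) = (u : CRing O H B) 1 • (1 : CRing O H B) := by
    have := congrArg (fun w => w * ((u⁻¹ : (CRing O H B)ˣ) : CRing O H B)) h1
    simpa [smul_mul_assoc] using this
  have := congrArg (fun w : CRing O H B => w 1) h2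
  simpa [CRing.smul_apply] using this.symm

/-- Cartier for units: a unit is a point iff `delta` kills it. -/
lemma unit_mem_range_ptsHom_iff (u : (CRing O H B)ˣ) :
    (u : CRing O H B) ∈ Set.range (ptsHom (O := O) (H := H) (B := B)) ↔ delta u = 1 := by
  rw [mem_range_ptsHom_iff, delta_eq_one_iff]
  exact ⟨fun h => h.2, fun h => ⟨apply_one_eq_one_of_isUnit u.isUnit h, h⟩⟩

lemma delta_def (u : (CRing O H B)ˣ) :
    delta u = Units.map (Delta (O := O) (H := H) (B := B)).toRingHom.toMonoidHom u *
      (Units.map diagTens u)⁻¹ := by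
  unfold delta
  rw [MonoidHom.div_apply, div_eq_mul_inv]

lemma delta_val_mul (u : (CRing O H B)ˣ) :
    ((delta u : (CRing O (H ⊗[O] H) B)ˣ) : CRing O (H ⊗[O] H) B) *
      tens ((u : CRing O H B), (u : CRing O H B)) = Delta (u : CRing O H B) := by
  have h : delta u * Units.map diagTens u =
      Units.map (Delta (O := O) (H := H) (B := B)).toRingHom.toMonoidHom u := by
    rw [delta_def, inv_mul_cancel_right]
  exact congrArg Units.val h

lemma delta_map (φ : B →ₐ[O] B') (u : (CRing O H B)ˣ) :
    Units.map (mapR (C := H ⊗[O] H) φ).toMonoidHom (delta u) =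
      delta (Units.map (mapR (C := H) φ).toMonoidHom u) := by
  have h1 : Units.map (mapR (C := H ⊗[O] H) φ).toMonoidHom
      (Units.map (Delta (O := O) (H := H) (B := B)).toRingHom.toMonoidHom u) =
      Units.map (Delta (O := O) (H := H) (B := B')).toRingHom.toMonoidHom
        (Units.map (mapR (C := H) φ).toMonoidHom u) :=
    Units.ext (mapR_Delta (H := H) φ (u : CRing O H B))
  have h2 : Units.map (mapR (C := H ⊗[O] H) φ).toMonoidHom (Units.map diagTens u) =
      Units.map diagTens (Units.map (mapR (C := H) φ).toMonoidHom u) :=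
    Units.ext (mapR_tens (H := H) φ (u : CRing O H B) (u : CRing O H B))
  rw [delta_def, delta_def, map_mul, map_inv, h1, h2]

/-- If a unit reduces modulo `a` to something killed by `delta`, then `delta u ≡ 1` modulo `a`. -/
lemma delta_sub_one_mem_levelIdeal {a : Ideal B} (u : (CRing O H B)ˣ)
    (h : delta (Units.map (mapR (C := H) (Ideal.Quotient.mkₐ O a)).toMonoidHom u) = 1) :
    ((delta u : (CRing O (H ⊗[O] H) B)ˣ) : CRing O (H ⊗[O] H) B) - 1 ∈ levelIdeal a := by
  have h1 := delta_map (H := H) (Ideal.Quotient.mkₐ O a) u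
  rw [h] at h1
  have h2 := congrArg Units.val h1
  unfold levelIdeal
  rw [RingHom.mem_ker, map_sub, map_one, sub_eq_zero]
  exact h2

/-- `delta u ≡ 1` modulo `a` when `u ≡ 1` modulo `a`. -/
lemma delta_sub_one_mem_levelIdeal_of_sub_one_mem {a : Ideal B} (u : (CRing O H B)ˣ)
    (h : (u : CRing O H B) - 1 ∈ levelIdeal a) :
    ((delta u : (CRing O (H ⊗[O] H) B)ˣ) : CRing O (H ⊗[O] H) B) - 1 ∈ levelIdeal a := by
  apply delta_sub_one_mem_levelIdeal
  have h1 : Units.map (mapR (C := H) (Ideal.Quotient.mkₐ O a)).toMonoidHom u = 1 := by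
    ext1
    unfold levelIdeal at h
    rw [RingHom.mem_ker, map_sub, map_one, sub_eq_zero] at h
    exact h
  rw [h1, map_one]

end Units

section HopfPts

variable {O : Type u} {H : Type v} {B : Type w} {B' : Type w'}
  [CommRing O] [CommRing H] [HopfAlgebra O H] [Coalgebra.IsCocomm O H]
  [CommRing B] [Algebra O B] [CommRing B'] [Algebra O B']

/-- The inverse of a point: composition with the antipode. -/
def ptsInv (g : WithConv (H →ₐ[O] B)) : WithConv (H →ₐ[O] B) :=
  toConv (g.ofConv.comp (HopfAlgebra.antipodeAlgHom O H))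

lemma ptsHom_eq_mapR (g : WithConv (H →ₐ[O] B)) :
    ptsHom g = mapR (C := H) g.ofConv (toConv LinearMap.id) := rfl

lemma ptsHom_ptsInv (g : WithConv (H →ₐ[O] B)) :
    ptsHom (ptsInv g) = mapR (C := H) g.ofConv (toConv (HopfAlgebra.antipode O)) := rfl

lemma ptsHom_mul_ptsInv (g : WithConv (H →ₐ[O] B)) : ptsHom g * ptsHom (ptsInv g) = 1 := by
  rw [ptsHom_eq_mapR, ptsHom_ptsInv, ← map_mul, LinearMap.id_mul_antipode, map_one]

lemma ptsHom_ptsInv_mul (g : WithConv (H →ₐ[O] B)) : ptsHom (ptsInv g) * ptsHom g = 1 := by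
  rw [mul_comm, ptsHom_mul_ptsInv]

lemma mul_ptsInv_cancel (g : WithConv (H →ₐ[O] B)) : g * ptsInv g = 1 :=
  ptsHom_injective (by rw [map_mul, ptsHom_mul_ptsInv, map_one])

lemma ptsInv_mul_cancel (g : WithConv (H →ₐ[O] B)) : ptsInv g * g = 1 :=
  ptsHom_injective (by rw [map_mul, ptsHom_ptsInv_mul, map_one])

/-- The points of a Hopf algebra as units of the convolution ring. -/
def ptsUnits : WithConv (H →ₐ[O] B) →* (CRing O H B)ˣ where
  toFun g := ⟨ptsHom g, ptsHom (ptsInv g), ptsHom_mul_ptsInv g, ptsHom_ptsInv_mul g⟩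
  map_one' := Units.ext (map_one ptsHom)
  map_mul' f g := Units.ext (map_mul ptsHom f g)

@[simp] lemma ptsUnits_val (g : WithConv (H →ₐ[O] B)) :
    ((ptsUnits g : (CRing O H B)ˣ) : CRing O H B) = ptsHom g := rfl

lemma ptsUnits_inv (g : WithConv (H →ₐ[O] B)) : (ptsUnits g)⁻¹ = ptsUnits (ptsInv g) := by
  rw [inv_eq_iff_mul_eq_one, ← map_mul, mul_ptsInv_cancel, map_one]

lemma ptsUnits_injective : Function.Injective (ptsUnits (O := O) (H := H) (B := B)) :=
  fun f g h => ptsHom_injective (by simpa using congrArg Units.val h)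

lemma delta_ptsUnits (g : WithConv (H →ₐ[O] B)) : delta (ptsUnits g) = 1 :=
  (unit_mem_range_ptsHom_iff _).1 ⟨g, rfl⟩

lemma exists_pts_of_delta_eq_one (u : (CRing O H B)ˣ) (h : delta u = 1) :
    ∃ g : WithConv (H →ₐ[O] B), ptsUnits g = u := by
  obtain ⟨g, hg⟩ := (unit_mem_range_ptsHom_iff u).2 h
  exact ⟨g, Units.ext hg⟩

lemma ptsUnits_mapPts (φ : B →ₐ[O] B') (g : WithConv (H →ₐ[O] B)) :
    ptsUnits (mapPts φ g) = Units.map (mapR (C := H) φ).toMonoidHom (ptsUnits g) :=
  Units.ext rfl

end HopfPts

end Fermat.Agent.S56x.Hopf
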