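import Mathlib

set_option autoImplicit false

/-!
# The `p`-th power map on `1 + ϖ^a C` in a `ϖ`-adically complete ring

P-S56 block (A), items (PP1), (PP2) of the blueprint (note 1366) / (α), (β) of note 1373, in the
generality: `C` a commutative ring, `ϖ : C` a non-zero-divisor, `C` `ϖ`-adically complete,
`p = u ϖ^e` with `u` a unit, and `e < (p - 1) a`.

* `eq_zero_of_one_add_pow_eq_one` (PP1): `ϖ^a ∣ z`, `(1 + z)^p = 1` ⟹ `z = 0`.
* `exists_one_add_pow_eq` (PP2): `∃ x, (1 + ϖ^a x)^p = 1 + p ϖ^a y`.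
* `exists_pow_eq_one_add_of_dvd` (PP2, divisibility form): `ϖ^(a+e) ∣ d` ⟹ `∃ w, ϖ^a ∣ w - 1 ∧ w^p = 1 + d`.
* `exists_fixed_point`: fixed points of `x ↦ y - ϖ T(x)`, `T` a polynomial.
Applies to `C = WithConv (H →ₗ[R] B)` (convolution algebra of a cocommutative coalgebra with values
in a complete DVR `B`), which is how it enters the Cartier-duality proof of Fontaine's Theorem A.
-/

namespace Fermat.Agent.S56x.Hopf.PthPowerCore

open Polynomial

section Binomial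

/-- `(X+1)^p = X^p + 1 + p (X + X^2 S)` in `ℤ[X]`. -/
theorem exists_binom_poly {p : ℕ} (hp : p.Prime) :
    ∃ S : ℤ[X], (X + 1 : ℤ[X]) ^ p = X ^ p + 1 + (p : ℤ[X]) * (X + X ^ 2 * S) := by
  refine ⟨∑ k ∈ Finset.Ioo 1 p, X ^ (k - 2) * ((p.choose k / p : ℕ) : ℤ[X]), ?_⟩
  rw [add_pow_prime_eq' hp]
  simp only [one_pow, mul_one]
  congr 2
  have h1 : Finset.Ioo 0 p = insert 1 (Finset.Ioo 1 p) := by
    ext k
    simp only [Finset.mem_Ioo, Finset.mem_insert]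
    have := hp.two_le
    omega
  rw [h1, Finset.sum_insert (by simp), Finset.mul_sum]
  congr 1
  · simp [Nat.choose_one_right, Nat.div_self hp.pos]
  · refine Finset.sum_congr rfl fun k hk => ?_
    have hk' := Finset.mem_Ioo.mp hk
    rw [← mul_assoc, ← pow_add]
    congr 2
    omega

/-- In any commutative ring, `(1+z)^p = 1 + z^p + p (z + z^2 S(z))` for a fixed polynomial `S`. -/
theorem exists_one_add_pow_prime (C : Type*) [CommRing C] {p : ℕ} (hp : p.Prime) :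
    ∃ S : C[X], ∀ z : C, (1 + z) ^ p = 1 + z ^ p + (p : C) * (z + z ^ 2 * S.eval z) := by
  obtain ⟨S, hS⟩ := exists_binom_poly hp
  refine ⟨S.map (Int.castRingHom C), fun z => ?_⟩
  have h := congrArg (fun P : ℤ[X] => (P.map (Int.castRingHom C)).eval z) hS
  simp only [Polynomial.map_add, Polynomial.map_pow, Polynomial.map_mul, Polynomial.map_one,
    Polynomial.map_X, Polynomial.map_natCast, eval_add, eval_pow, eval_mul, eval_one, eval_X,
    eval_natCast] at h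
  rw [add_comm 1 z, h]
  ring

end Binomial

section Adic

variable {C : Type*} [CommRing C]

theorem smodEq_span_pow_iff (ϖ : C) (n : ℕ) (x y : C) :
    x ≡ y [SMOD ((Ideal.span {ϖ}) ^ n • (⊤ : Submodule C C))] ↔ ϖ ^ n ∣ x - y := by
  rw [SModEq.sub_mem, smul_eq_mul, Ideal.mul_top, Ideal.span_singleton_pow,
    Ideal.mem_span_singleton]

/-- Fixed points of `x ↦ y - ϖ T(x)` in a `ϖ`-adically complete ring. -/
theorem exists_fixed_point (ϖ : C) [IsAdicComplete (Ideal.span {ϖ}) C] (T : C[X]) (y : C) :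
    ∃ x : C, x = y - ϖ * T.eval x := by
  -- the iteration
  let f : ℕ → C := fun n => Nat.rec y (fun _ x => y - ϖ * T.eval x) n
  have hf0 : f 0 = y := rfl
  have hfs : ∀ n, f (n + 1) = y - ϖ * T.eval (f n) := fun n => rfl
  have hstep : ∀ n, ϖ ^ (n + 1) ∣ f (n + 1) - f n := by
    intro n
    induction n with
    | zero =>
      rw [hfs, hf0]
      exact ⟨-T.eval y, by ring⟩
    | succ n ih =>
      rw [hfs (n + 1), hfs n]
      obtain ⟨c, hc⟩ := ih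
      obtain ⟨d, hd⟩ := Polynomial.sub_dvd_eval_sub (f (n + 1)) (f n) T
      refine ⟨-(c * d), ?_⟩
      have : y - ϖ * T.eval (f (n + 1)) - (y - ϖ * T.eval (f n))
          = -(ϖ * (T.eval (f (n + 1)) - T.eval (f n))) := by ring
      rw [this, hd, hc]
      ring
  have hcauchy : ∀ {m n}, m ≤ n → ϖ ^ m ∣ f n - f m := by
    intro m n hmn
    induction n, hmn using Nat.le_induction with
    | base => simp
    | succ n hmn ih =>
      have h1 : ϖ ^ m ∣ f (n + 1) - f n :=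
        dvd_trans (pow_dvd_pow ϖ (by omega)) (hstep n)
      have : f (n + 1) - f m = (f (n + 1) - f n) + (f n - f m) := by ring
      rw [this]
      exact dvd_add h1 ih
  obtain ⟨L, hL⟩ := IsPrecomplete.prec (I := Ideal.span {ϖ}) (M := C) inferInstance (f := f)
    (fun {m n} hmn => by
      rw [smodEq_span_pow_iff]
      have := hcauchy hmn
      rwa [← neg_sub, dvd_neg] )
  refine ⟨L, ?_⟩
  have hL' : ∀ n, ϖ ^ n ∣ f n - L := fun n => (smodEq_span_pow_iff ϖ n _ _).mp (hL n)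
  rw [← sub_eq_zero]
  apply IsHausdorff.haus (I := Ideal.span {ϖ}) (M := C) inferInstance
  intro n
  rw [smodEq_span_pow_iff, sub_zero]
  -- L - (y - ϖ T(L)) = (L - f (n+1)) + ϖ (T(L) - T(f n)) ... with f (n+1) = y - ϖ T (f n)
  obtain ⟨c, hc⟩ := hL' (n + 1)
  obtain ⟨c', hc'⟩ := hL' n
  obtain ⟨d, hd⟩ := Polynomial.sub_dvd_eval_sub L (f n) T
  refine ⟨-(ϖ * c) - ϖ * (c' * d), ?_⟩
  have e1 : L - (y - ϖ * T.eval L) = -(f (n + 1) - L) + ϖ * (T.eval L - T.eval (f n)) := by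
    rw [hfs]; ring
  have e2 : L - f n = -(f n - L) := by ring
  rw [e1, hd, e2, hc, hc']
  ring

end Adic

section Roots

variable {C : Type*} [CommRing C] {ϖ : C} {p e a : ℕ}

theorem eq_zero_of_pow_mul_eq_zero (hreg : ∀ x : C, ϖ * x = 0 → x = 0) (n : ℕ) :
    ∀ x : C, ϖ ^ n * x = 0 → x = 0 := by
  induction n with
  | zero => intro x hx; simpa using hx
  | succ n ih =>
    intro x hx
    apply ih
    apply hreg
    rw [← mul_assoc, ← pow_succ']
    exact hx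

/-- **(β)** `p`-torsion in `1 + ϖ^a C` is trivial when `(p-1) a > e = v(p)`. -/
theorem eq_zero_of_one_add_pow_eq_one [IsAdicComplete (Ideal.span {ϖ}) C]
    (hp : p.Prime) (u : Cˣ) (hpe : (p : C) = u * ϖ ^ e) (hea : e < (p - 1) * a)
    (hreg : ∀ x : C, ϖ * x = 0 → x = 0) {z : C} (hz : ϖ ^ a ∣ z) (h : (1 + z) ^ p = 1) :
    z = 0 := by
  obtain ⟨S, hS⟩ := exists_one_add_pow_prime C hp
  obtain ⟨q, rfl⟩ : ∃ q, p = q + 1 := ⟨p - 1, by have := hp.pos; omega⟩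
  simp only [Nat.add_sub_cancel] at hea
  have ha1 : 1 ≤ a := by
    rcases Nat.eq_zero_or_pos a with h0 | h0
    · subst h0; simp at hea
    · exact h0
  have hjac : ∀ x : C, IsUnit (1 + ϖ * x) := by
    intro x
    have hmem : ϖ ∈ (⊥ : Ideal C).jacobson :=
      IsAdicComplete.le_jacobson_bot (Ideal.span {ϖ}) (Ideal.mem_span_singleton_self ϖ)
    have := (Ideal.mem_jacobson_bot.mp hmem) x
    rwa [add_comm] at this
  have key : ∀ s, a ≤ s → ϖ ^ s ∣ z → ϖ ^ (s + 1) ∣ z := by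
    intro s hs hzs
    obtain ⟨z0, hz0⟩ := hzs
    have h1 := hS z
    rw [h] at h1
    have h2 : z ^ (q + 1) + ((q + 1 : ℕ) : C) * (z + z ^ 2 * S.eval z) = 0 := by
      linear_combination -h1
    have hqs : e < q * s := lt_of_lt_of_le hea (Nat.mul_le_mul_left _ hs)
    obtain ⟨d', hd'⟩ : ∃ d', (q + 1) * s = e + s + (d' + 1) := by
      refine ⟨q * s - e - 1, ?_⟩
      have : (q + 1) * s = q * s + s := by ring
      omega
    obtain ⟨s', rfl⟩ : ∃ s', s = s' + 1 := ⟨s - 1, by omega⟩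
    have h3 : ϖ ^ (e + (s' + 1)) *
        (ϖ ^ (d' + 1) * z0 ^ (q + 1) + u * z0 * (1 + ϖ * (ϖ ^ s' * z0 * S.eval z))) = 0 := by
      have e1 : z ^ (q + 1) = ϖ ^ (e + (s' + 1)) * (ϖ ^ (d' + 1) * z0 ^ (q + 1)) := by
        rw [hz0, mul_pow, ← pow_mul, mul_comm (s' + 1) (q + 1), hd', pow_add, mul_assoc]
      have e2 : ((q + 1 : ℕ) : C) * (z + z ^ 2 * S.eval z)
          = ϖ ^ (e + (s' + 1)) * (u * z0 * (1 + ϖ * (ϖ ^ s' * z0 * S.eval z))) := by
        rw [hpe]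
        generalize S.eval z = t
        rw [hz0]
        ring
      rw [mul_add, ← e1, ← e2]
      exact h2
    have h4 := eq_zero_of_pow_mul_eq_zero hreg _ _ h3
    obtain ⟨w, hw⟩ := (hjac (ϖ ^ s' * z0 * S.eval z)).exists_left_inv
    -- z0 = -(u⁻¹ w ϖ^(d'+1) z0^(q+1))
    have h5 : z0 = ϖ * (-(↑u⁻¹ * w * ϖ ^ d' * z0 ^ (q + 1))) := by
      have h6 : u * z0 * (1 + ϖ * (ϖ ^ s' * z0 * S.eval z)) = -(ϖ ^ (d' + 1) * z0 ^ (q + 1)) := by
        linear_combination h4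
      have h7 : z0 = ↑u⁻¹ * w * (u * z0 * (1 + ϖ * (ϖ ^ s' * z0 * S.eval z))) := by
        have : ↑u⁻¹ * w * (u * z0 * (1 + ϖ * (ϖ ^ s' * z0 * S.eval z)))
            = (↑u⁻¹ * ↑u) * (w * (1 + ϖ * (ϖ ^ s' * z0 * S.eval z))) * z0 := by ring
        rw [this, hw, Units.inv_mul]
        ring
      rw [h6] at h7
      calc z0 = ↑u⁻¹ * w * -(ϖ ^ (d' + 1) * z0 ^ (q + 1)) := h7
        _ = ϖ * (-(↑u⁻¹ * w * ϖ ^ d' * z0 ^ (q + 1))) := by ring
    refine ⟨-(↑u⁻¹ * w * ϖ ^ d' * z0 ^ (q + 1)), ?_⟩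
    rw [hz0]
    nth_rewrite 1 [h5]
    ring
  have hall : ∀ n, ϖ ^ n ∣ z := by
    intro n
    rcases le_total n a with hn | hn
    · exact dvd_trans (pow_dvd_pow ϖ hn) hz
    · induction n, hn using Nat.le_induction with
      | base => exact hz
      | succ n hn ih => exact key n hn ih
  apply IsHausdorff.haus (I := Ideal.span {ϖ}) (M := C) inferInstance
  intro n
  rw [smodEq_span_pow_iff, sub_zero]
  exact hall n

/-- **(α)** `1 + p ϖ^a y` has a `p`-th root in `1 + ϖ^a C` when `(p-1) a > e = v(p)`. -/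
theorem exists_one_add_pow_eq [IsAdicComplete (Ideal.span {ϖ}) C]
    (hp : p.Prime) (u : Cˣ) (hpe : (p : C) = u * ϖ ^ e) (hea : e < (p - 1) * a) (y : C) :
    ∃ x : C, (1 + ϖ ^ a * x) ^ p = 1 + (p : C) * (ϖ ^ a * y) := by
  obtain ⟨S, hS⟩ := exists_one_add_pow_prime C hp
  obtain ⟨q, rfl⟩ : ∃ q, p = q + 1 := ⟨p - 1, by have := hp.pos; omega⟩
  simp only [Nat.add_sub_cancel] at hea
  obtain ⟨a', rfl⟩ : ∃ a', a = a' + 1 := by
    rcases Nat.eq_zero_or_pos a with h0 | h0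
    · subst h0; simp at hea
    · exact ⟨a - 1, by omega⟩
  obtain ⟨d, hd⟩ : ∃ d, (q + 1) * (a' + 1) = e + (a' + 1) + (d + 1) := by
    refine ⟨q * (a' + 1) - e - 1, ?_⟩
    have : (q + 1) * (a' + 1) = q * (a' + 1) + (a' + 1) := by ring
    omega
  let T : C[X] := Polynomial.C (↑u⁻¹ * ϖ ^ d) * X ^ (q + 1)
    + Polynomial.C (ϖ ^ a') * X ^ 2 * S.comp (Polynomial.C (ϖ ^ (a' + 1)) * X)
  obtain ⟨x, hx⟩ := exists_fixed_point ϖ T y
  refine ⟨x, ?_⟩
  have hT : T.eval x = ↑u⁻¹ * ϖ ^ d * x ^ (q + 1)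
      + ϖ ^ a' * x ^ 2 * S.eval (ϖ ^ (a' + 1) * x) := by
    simp [T, eval_comp]
  have hy : y = x + ϖ * (↑u⁻¹ * ϖ ^ d * x ^ (q + 1)
      + ϖ ^ a' * x ^ 2 * S.eval (ϖ ^ (a' + 1) * x)) := by
    rw [← hT]; linear_combination -hx
  rw [hS (ϖ ^ (a' + 1) * x), hy]
  generalize S.eval (ϖ ^ (a' + 1) * x) = t
  have hpow : (ϖ ^ (a' + 1) * x) ^ (q + 1)
      = ((q + 1 : ℕ) : C) * (ϖ ^ (a' + 1) * (ϖ * (↑u⁻¹ * ϖ ^ d * x ^ (q + 1)))) := by
    rw [mul_pow, ← pow_mul, mul_comm (a' + 1) (q + 1), hd, hpe]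
    have : (u : C) * ↑u⁻¹ = 1 := Units.mul_inv u
    linear_combination (-(ϖ ^ e * ϖ ^ (a' + 1) * ϖ ^ (d + 1) * x ^ (q + 1))) * this
  rw [hpow]
  ring

/-- **(PP2)**, divisibility form. -/
theorem exists_pow_eq_one_add_of_dvd [IsAdicComplete (Ideal.span {ϖ}) C]
    (hp : p.Prime) (u : Cˣ) (hpe : (p : C) = u * ϖ ^ e) (hea : e < (p - 1) * a) {d : C}
    (hd : ϖ ^ (a + e) ∣ d) : ∃ w : C, ϖ ^ a ∣ w - 1 ∧ w ^ p = 1 + d := by
  obtain ⟨d', rfl⟩ := hd
  obtain ⟨x, hx⟩ := exists_one_add_pow_eq hp u hpe hea (↑u⁻¹ * d')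
  refine ⟨1 + ϖ ^ a * x, ⟨x, by ring⟩, ?_⟩
  rw [hx, hpe]
  have : (u : C) * ↑u⁻¹ = 1 := Units.mul_inv u
  linear_combination (ϖ ^ e * ϖ ^ a * d') * this

end Roots

end Fermat.Agent.S56x.Hopf.PthPowerCore
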